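/-
P-CFT row 554 (L-COMM), helper7: the local duality map `λ` is a morphism of complexes.

`leibniz01`, `leibniz10` : the Leibniz rule for `cupFn` in bidegrees `(0, 1)` and `(1, 0)`
(any equivariant pairing, any inhomogeneous cochains); `lthetaComm : LThetaCommStatement`.
-/
import Fermat.Agent.H13.Cft.Local

set_option autoImplicit false

universe u

open CategoryTheory groupCohomology Fermat.Agent.H13.Cft

namespace Fermat.Agent.H7.Cft

section leibniz

variable {k G : Type u} [CommRing k] [Group G]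

omit [Group G] in
lemma exists_vec2 (g : Fin 2 → G) : ∃ g₁ g₂ : G, g = ![g₁, g₂] :=
  ⟨g 0, g 1, by funext i; fin_cases i <;> rfl⟩

omit [Group G] in
lemma eq_const_fin0 {X : Type*} (a : (Fin 0 → G) → X) : a = fun _ => a default := by
  funext f
  exact congrArg a (Subsingleton.elim _ _)

omit [Group G] in
lemma eq_eval_fin1 {X : Type*} (y : (Fin 1 → G) → X) :
    y = fun f => (fun h : G => y fun _ => h) (f 0) := by
  funext f
  refine congrArg y ?_
  funext i
  rw [Subsingleton.elim i 0]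

lemma leibniz01_aux {A B C : Rep.{u} k G} (β : RepPairing A B C) (m : A) (Y : G → B) :
    (inhomogeneousCochains.d C 1).hom (cupFn β 0 1 (fun _ => m) (fun f => Y (f 0))) =
      cupFn β 1 1 ((inhomogeneousCochains.d A 0).hom (fun _ => m)) (fun f => Y (f 0)) +
        cupFn β 0 2 (fun _ => m) ((inhomogeneousCochains.d B 1).hom (fun f => Y (f 0))) := by
  funext g
  obtain ⟨g₁, g₂, rfl⟩ := exists_vec2 g
  simp only [inhomogeneousCochains.d_hom_apply, cupFn, headProd, Pi.add_apply, Fin.sum_univ_succ,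
    Fin.sum_univ_zero]
  simp [Fin.contractNth]
  exact (β.equivariant g₁ m (Y g₂)).symm

/-- Leibniz rule in bidegree `(0, 1)`: `d (a ∪ y) = da ∪ y + a ∪ dy`. -/
lemma leibniz01 {A B C : Rep.{u} k G} (β : RepPairing A B C) (a : (Fin 0 → G) → A)
    (y : (Fin 1 → G) → B) :
    (inhomogeneousCochains.d C 1).hom (cupFn β 0 1 a y) =
      cupFn β 1 1 ((inhomogeneousCochains.d A 0).hom a) y +
        cupFn β 0 2 a ((inhomogeneousCochains.d B 1).hom y) := by
  rw [eq_const_fin0 a, eq_eval_fin1 y]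
  exact leibniz01_aux β (a default) (fun h => y fun _ => h)

lemma leibniz10_aux {A B C : Rep.{u} k G} (β : RepPairing A B C) (X : G → A) (b : B) :
    (inhomogeneousCochains.d C 1).hom (cupFn β 1 0 (fun f => X (f 0)) (fun _ => b)) =
      cupFn β 2 0 ((inhomogeneousCochains.d A 1).hom (fun f => X (f 0))) (fun _ => b) -
        cupFn β 1 1 (fun f => X (f 0)) ((inhomogeneousCochains.d B 0).hom (fun _ => b)) := by
  funext g
  obtain ⟨g₁, g₂, rfl⟩ := exists_vec2 g
  simp only [inhomogeneousCochains.d_hom_apply, cupFn, headProd, Pi.sub_apply, Fin.sum_univ_succ,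
    Fin.sum_univ_zero]
  simp [Fin.contractNth]
  rw [← β.equivariant g₁ (X g₂) ((B.ρ g₂) b)]
  abel

/-- Leibniz rule in bidegree `(1, 0)`: `d (a ∪ y) = da ∪ y - a ∪ dy`. -/
lemma leibniz10 {A B C : Rep.{u} k G} (β : RepPairing A B C) (a : (Fin 1 → G) → A)
    (y : (Fin 0 → G) → B) :
    (inhomogeneousCochains.d C 1).hom (cupFn β 1 0 a y) =
      cupFn β 2 0 ((inhomogeneousCochains.d A 1).hom a) y -
        cupFn β 1 1 a ((inhomogeneousCochains.d B 0).hom y) := by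
  rw [eq_const_fin0 y, eq_eval_fin1 a]
  exact leibniz10_aux β (fun h => a fun _ => h) (y default)

end leibniz


section lcomm

variable {k : Type u} [CommRing k] {Γ : Type u} [Group Γ]
  {𝒱 : LevelSys Γ} {χ : Γ →* kˣ} (T : LTrace 𝒱 χ) (M : Rep.{u} k Γ)

lemma lvlD_cup01 {A B C : Rep.{u} k Γ} (β : RepPairing A B C) (x : lvlCochains 𝒱 A 0)
    (y : lvlCochains 𝒱 B 1) :
    lvlD 𝒱 C 1 (cupLvl 𝒱 β 0 1 x y) =
      cupLvl 𝒱 β 1 1 (lvlD 𝒱 A 0 x) y + cupLvl 𝒱 β 0 2 x (lvlD 𝒱 B 1 y) := by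
  apply Subtype.ext
  exact leibniz01 β x.1 y.1

lemma lvlD_cup10 {A B C : Rep.{u} k Γ} (β : RepPairing A B C) (x : lvlCochains 𝒱 A 1)
    (y : lvlCochains 𝒱 B 0) :
    lvlD 𝒱 C 1 (cupLvl 𝒱 β 1 0 x y) =
      cupLvl 𝒱 β 2 0 (lvlD 𝒱 A 1 x) y - cupLvl 𝒱 β 1 1 x (lvlD 𝒱 B 0 y) := by
  apply Subtype.ext
  exact leibniz10 β x.1 y.1

lemma ltheta_comm0 (x : lvlCochains 𝒱 M 0) (y : lvlCochains 𝒱 (M.dualTwist χ) 1) :
    ltheta0 T M x (lvlD 𝒱 (M.dualTwist χ) 1 y) = ltheta1 T M (lvlD 𝒱 M 0 x) y := by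
  have h := T.t_d (cupLvl 𝒱 (evPairing χ M) 0 1 x y)
  rw [lvlD_cup01, map_add] at h
  simp only [ltheta0, ltheta1, LinearMap.compr₂_apply, LinearMap.neg_apply]
  linear_combination h

lemma ltheta_comm1 (x : lvlCochains 𝒱 M 1) (y : lvlCochains 𝒱 (M.dualTwist χ) 0) :
    ltheta1 T M x (lvlD 𝒱 (M.dualTwist χ) 0 y) = ltheta2 T M (lvlD 𝒱 M 1 x) y := by
  have h := T.t_d (cupLvl 𝒱 (evPairing χ M) 1 0 x y)
  rw [lvlD_cup10, map_sub] at h
  simp only [ltheta1, ltheta2, LinearMap.compr₂_apply, LinearMap.neg_apply]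
  linear_combination h

lemma dualCx2_d (K : CochainComplex (ModuleCat.{u} k) ℕ) (n : ℕ) :
    (dualCx2 K).d n (n + 1) = dualD2 K n :=
  CochainComplex.of_d _ _ _

lemma lvlComplex_d (A : Rep.{u} k Γ) (n : ℕ) :
    (lvlComplex 𝒱 A).d n (n + 1) = ModuleCat.ofHom (lvlD 𝒱 A n) :=
  CochainComplex.of_d (fun n => ModuleCat.of k (lvlCochains 𝒱 A n))
    (fun n => ModuleCat.ofHom (lvlD 𝒱 A n)) n

lemma lvlComplex_d_hom_apply (A : Rep.{u} k Γ) (n : ℕ) (y : lvlCochains 𝒱 A n) :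
    ((lvlComplex 𝒱 A).d n (n + 1)).hom y = lvlD 𝒱 A n y := by
  rw [lvlComplex_d]
  rfl

/-- `λ` commutes with the differentials. -/
theorem lThetaComm_of : LThetaComm T M := by
  intro n
  match n with
  | 0 =>
    rw [dualCx2_d, lvlComplex_d]
    ext x : 2
    refine LinearMap.ext fun y => ?_
    have h := ltheta_comm0 T M x y
    rw [← lvlComplex_d_hom_apply] at h
    exact h
  | 1 =>
    rw [dualCx2_d, lvlComplex_d]
    ext x : 2
    refine LinearMap.ext fun y => ?_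
    have h := ltheta_comm1 T M x y
    rw [← lvlComplex_d_hom_apply] at h
    exact h
  | 2 =>
    have h1 : (dualCx2 (lvlComplex 𝒱 (M.dualTwist χ))).d 2 (2 + 1) = 0 := by
      rw [dualCx2_d]
      rfl
    have h2 : lthetaF T M (2 + 1) = 0 := rfl
    rw [h1, h2, Limits.comp_zero, Limits.comp_zero]
  | n + 3 =>
    have h1 : lthetaF T M (n + 3) = 0 := rfl
    have h2 : lthetaF T M (n + 3 + 1) = 0 := rfl
    rw [h1, h2, Limits.zero_comp, Limits.comp_zero]

end lcomm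

/-- **[L-COMM]** (row 554): `λ` is a morphism of complexes. -/
theorem lThetaComm : LThetaCommStatement.{u} := by
  intro k Γ _ _ 𝒱 χ T M
  exact lThetaComm_of T M

end Fermat.Agent.H7.Cft
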