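/-
P-CFT row 616 (2I-SPLITNORM), helper7: at a split prime every element of `Kˣ` is a local norm.

`L/K` Galois of prime degree `p`, `v` a prime of `K` with two distinct primes of `L` above it.
The stabiliser of a prime `W₁ ∣ v` is trivial (prime order + transitivity); weak approximation
gives `β ∈ Lˣ` close to `y` at `W₁` and close to `1` at the other primes above `v`; then
`N β / y = (β / y) ∏_{σ ≠ 1} σ β` is close to `1` at `W₁`, hence at `v`.
-/
import Fermat.Agent.H25.CFT.SplitNormInterface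
import Fermat.Agent.H43.Cft.GaloisSUnit
import Fermat.Agent.H65.Cft.WeakApprox

set_option autoImplicit false

noncomputable section

open NumberField IsDedekindDomain Fermat.Agent.H43.Cft

open scoped Pointwise

namespace Fermat.Agent.H7.Cft

universe u v

section

variable {K : Type u} [Field K] [NumberField K] {L : Type v} [Field L] [NumberField L]
  [Algebra K L]

lemma galPrime_one (w : HeightOneSpectrum (𝓞 L)) : galPrime (1 : L ≃ₐ[K] L) w = w := by
  apply HeightOneSpectrum.ext
  ext r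
  change intAut (1 : L ≃ₐ[K] L) r ∈ w.asIdeal ↔ r ∈ w.asIdeal
  have : intAut (1 : L ≃ₐ[K] L) r = r := by
    apply RingOfIntegers.ext
    rw [intAut_coe]
    rfl
  rw [this]

lemma galPrime_mul (σ τ : L ≃ₐ[K] L) (w : HeightOneSpectrum (𝓞 L)) :
    galPrime (σ * τ) w = galPrime τ (galPrime σ w) := by
  apply HeightOneSpectrum.ext
  ext r
  change intAut (σ * τ) r ∈ w.asIdeal ↔ intAut σ (intAut τ r) ∈ w.asIdeal
  have : intAut (σ * τ) r = intAut σ (intAut τ r) := by
    apply RingOfIntegers.ext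
    rw [intAut_coe, intAut_coe, intAut_coe]
    rfl
  rw [this]

/-- The stabiliser of a prime of `L` in the Galois group. -/
def galStab (K : Type u) [Field K] [NumberField K] {L : Type v} [Field L] [NumberField L]
    [Algebra K L] (w : HeightOneSpectrum (𝓞 L)) : Subgroup (L ≃ₐ[K] L) where
  carrier := {σ | galPrime σ w = w}
  one_mem' := galPrime_one w
  mul_mem' := by
    intro σ τ hσ hτ
    simp only [Set.mem_ofPred_eq] at hσ hτ ⊢
    rw [galPrime_mul, hσ, hτ]
  inv_mem' := by
    intro σ hσ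
    simp only [Set.mem_ofPred_eq] at hσ ⊢
    have h := galPrime_mul σ σ⁻¹ w
    rw [mul_inv_cancel, galPrime_one, hσ] at h
    exact h.symm

lemma mem_galStab {w : HeightOneSpectrum (𝓞 L)} {σ : L ≃ₐ[K] L} :
    σ ∈ galStab K w ↔ galPrime σ w = w := Iff.rfl

/-- Transitivity of the Galois group on the primes above `v`, in terms of `galPrime`. -/
lemma exists_galPrime_eq [IsGalois K L] {w w' : HeightOneSpectrum (𝓞 L)}
    (h : w.under (𝓞 K) = w'.under (𝓞 K)) : ∃ σ : L ≃ₐ[K] L, galPrime σ w = w' := by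
  have : w.asIdeal.LiesOver (w.under (𝓞 K)).asIdeal := ⟨rfl⟩
  have : w'.asIdeal.LiesOver (w.under (𝓞 K)).asIdeal := ⟨by rw [h]; rfl⟩
  obtain ⟨σ, hσ⟩ := Ideal.exists_smul_eq_of_isGaloisGroup (w.under (𝓞 K)).asIdeal w'.asIdeal
    w.asIdeal Gal(L/K)
  refine ⟨σ, ?_⟩
  apply HeightOneSpectrum.ext
  change Ideal.comap ((intAut σ : 𝓞 L ≃+* 𝓞 L) : 𝓞 L →+* 𝓞 L) w.asIdeal = w'.asIdeal
  rw [← hσ, Ideal.pointwise_smul_def]
  exact Ideal.comap_map_of_bijective _ (intAut σ).bijective

/-- In a Galois extension of prime degree, a prime with a second prime over the same prime of `K`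
has trivial stabiliser. -/
lemma galPrime_ne_of_ne_one [IsGalois K L] {p : ℕ} (hp : p.Prime)
    (hdeg : Module.finrank K L = p) {w w' : HeightOneSpectrum (𝓞 L)}
    (h : w.under (𝓞 K) = w'.under (𝓞 K)) (hne : w ≠ w') {σ : L ≃ₐ[K] L} (hσ : σ ≠ 1) :
    galPrime σ w ≠ w := by
  intro hfix
  have : Fact (Nat.card (L ≃ₐ[K] L)).Prime := ⟨by
    rw [IsGalois.card_aut_eq_finrank, hdeg]; exact hp⟩
  rcases Subgroup.eq_bot_or_eq_top_of_prime_card (galStab K w) with hb | ht
  · have : σ ∈ galStab K w := hfix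
    rw [hb, Subgroup.mem_bot] at this
    exact hσ this
  · obtain ⟨τ, hτ⟩ := exists_galPrime_eq h
    have : τ ∈ galStab K w := by rw [ht]; exact Subgroup.mem_top τ
    rw [mem_galStab] at this
    exact hne (this.symm.trans hτ)

end

section valuations

variable {K : Type u} [Field K] [NumberField K]

/-- `a ^ e ≤ exp(-(e (m+1)))` forces `a ≤ exp(-(m+1))`. -/
lemma le_exp_of_pow_le {a : WithZero (Multiplicative ℤ)} {e : ℕ} (he : e ≠ 0) {m : ℕ}
    (h : a ^ e ≤ WithZero.exp (-(((e * (m + 1) : ℕ) : ℤ)))) :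
    a ≤ WithZero.exp (-((m : ℤ) + 1)) := by
  by_contra hlt
  rw [not_le] at hlt
  have h1 : WithZero.exp (-((m : ℤ) + 1)) ^ e < a ^ e :=
    pow_lt_pow_left₀ hlt zero_le he
  have h2 : WithZero.exp (-((m : ℤ) + 1)) ^ e = WithZero.exp (-(((e * (m + 1) : ℕ) : ℤ))) := by
    rw [← WithZero.exp_nsmul]
    congr 1
  rw [h2] at h1
  exact absurd h (not_le.mpr h1)

end valuations

section main

variable (K : Type u) [Field K] [NumberField K] (L : Type v) [Field L] [NumberField L]
  [Algebra K L]

/-- the image of `y : Kˣ` in `Lˣ` -/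
abbrev baseUnit (y : Kˣ) : Lˣ := Units.map (algebraMap K L : K →* L) y

/-- `σ` applied to a unit of `L` -/
abbrev galUnit {K : Type u} [Field K] {L : Type v} [Field L] [Algebra K L] (σ : L ≃ₐ[K] L)
    (β : Lˣ) : Lˣ := Units.map ((σ : L ≃* L) : L →* L) β

variable {K L}

lemma galUnit_mem_principalUnits (σ : L ≃ₐ[K] L) (w : HeightOneSpectrum (𝓞 L)) (m : ℕ)
    {β : Lˣ} (h : β ∈ principalUnits L (galPrime σ w) m) :
    galUnit σ β ∈ principalUnits L w m := by
  rw [mem_principalUnits] at h ⊢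
  rw [valuation_galPrime, map_sub, map_one] at h
  exact h

lemma galUnit_div_mem_principalUnits (σ : L ≃ₐ[K] L) (w : HeightOneSpectrum (𝓞 L)) (m : ℕ)
    {β : Lˣ} (y : Kˣ) (h : β / baseUnit K L y ∈ principalUnits L (galPrime σ w) m) :
    galUnit σ β / baseUnit K L y ∈ principalUnits L w m := by
  have h1 := galUnit_mem_principalUnits σ w m h
  have h2 : galUnit σ (β / baseUnit K L y) = galUnit σ β / baseUnit K L y := by
    apply Units.ext
    change σ (((β / baseUnit K L y : Lˣ) : L)) = ((galUnit σ β / baseUnit K L y : Lˣ) : L)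
    rw [Units.val_div_eq_div_val, Units.val_div_eq_div_val, map_div₀]
    change σ (β : L) / σ (algebraMap K L (y : K)) = σ (β : L) / algebraMap K L (y : K)
    rw [AlgEquiv.commutes]
  rwa [h2] at h1

theorem mem_sup_of_split [IsGalois K L] {p : ℕ} (hp : p.Prime)
    (hdeg : Module.finrank K L = p) (v : HeightOneSpectrum (𝓞 K))
    {w w' : HeightOneSpectrum (𝓞 L)} (hw : w.under (𝓞 K) = v) (hw' : w'.under (𝓞 K) = v)
    (hne : w ≠ w') (y : Kˣ) (m : ℕ) :
    y ∈ normSubgroup K L ⊔ principalUnits K v m := by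
  classical
  subst hw
  set e : ℕ := (w.under (𝓞 K)).asIdeal.ramificationIdx' w.asIdeal with he
  have he0 : e ≠ 0 := ramificationIdx'_ne_zero w
  set m' : ℕ := e * (m + 1) with hm'
  -- weak approximation
  obtain ⟨β, hβ⟩ := Fermat.Agent.H65.weakApprox L (primesAbove K L {w.under (𝓞 K)}) m'
    (fun W => if W = w then baseUnit K L y else 1)
  have hβw : β / baseUnit K L y ∈ principalUnits L w m' := by
    have := hβ w (by rw [mem_primesAbove, Finset.mem_singleton])
    simpa using this
  have hβo : ∀ W : HeightOneSpectrum (𝓞 L), W.under (𝓞 K) = w.under (𝓞 K) → W ≠ w →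
      β ∈ principalUnits L W m' := by
    intro W hW hWw
    have := hβ W (by rw [mem_primesAbove, Finset.mem_singleton]; exact hW)
    simpa [hWw] using this
  -- the conjugates
  have hconj : ∀ σ : L ≃ₐ[K] L, σ ≠ 1 → galUnit σ β ∈ principalUnits L w m' := by
    intro σ hσ
    refine galUnit_mem_principalUnits σ w m' (hβo _ ?_ ?_)
    · rw [under_galPrime]
    · exact galPrime_ne_of_ne_one hp hdeg hw'.symm hne hσ
  -- the norm
  set N : Kˣ := Units.map (Algebra.norm K : L →* K) β with hN
  have hNmem : N ∈ normSubgroup K L := ⟨β, rfl⟩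
  have hprod : baseUnit K L N = ∏ σ : L ≃ₐ[K] L, galUnit σ β := by
    apply Units.ext
    rw [Units.coe_prod]
    simp only [baseUnit, galUnit, Units.coe_map, MonoidHom.coe_coe, hN]
    exact Algebra.norm_eq_prod_automorphisms K (β : L)
  have hsplit : baseUnit K L N / baseUnit K L y =
      (β / baseUnit K L y) * ∏ σ ∈ (Finset.univ.erase (1 : L ≃ₐ[K] L)), galUnit σ β := by
    rw [hprod, ← Finset.mul_prod_erase Finset.univ _ (Finset.mem_univ (1 : L ≃ₐ[K] L))]
    have h1 : galUnit (1 : L ≃ₐ[K] L) β = β := by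
      apply Units.ext
      rfl
    rw [h1]
    simp only [div_eq_mul_inv]
    rw [mul_assoc, mul_assoc, mul_comm (∏ σ ∈ _, _)]
  have hclose : baseUnit K L N / baseUnit K L y ∈ principalUnits L w m' := by
    rw [hsplit]
    refine Subgroup.mul_mem _ hβw (Subgroup.prod_mem _ fun σ hσ => ?_)
    exact hconj σ (Finset.ne_of_mem_erase hσ)
  -- descend to `K`
  have hK : N / y ∈ principalUnits K (w.under (𝓞 K)) m := by
    rw [mem_principalUnits] at hclose ⊢
    have h1 : ((baseUnit K L N / baseUnit K L y : Lˣ) : L) - 1 =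
        algebraMap K L (((N / y : Kˣ) : K) - 1) := by
      simp [baseUnit, Units.val_div_eq_div_val]
    rw [h1, valuation_algebraMap_eq_pow] at hclose
    refine le_exp_of_pow_le he0 ?_
    refine hclose.trans ?_
    rw [WithZero.exp_le_exp, ← hm']
    omega
  have hy : y = N * (N / y)⁻¹ := by
    rw [inv_div]
    exact (mul_div_cancel N y).symm
  rw [hy]
  exact Subgroup.mul_mem_sup hNmem (Subgroup.inv_mem _ hK)

end main

/-- **2I-SPLITNORM** (row 616): at a split prime every element of `Kˣ` is a local norm. -/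
theorem splitLocNorm : Fermat.Agent.H25.CFT.SplitLocNormStatement.{u, v} := by
  intro K _ _ L _ _ _ _ p hp hdeg v hv
  have hex : ∃ w w' : HeightOneSpectrum (𝓞 L), w.under (𝓞 K) = v ∧ w'.under (𝓞 K) = v ∧
      w ≠ w' := by
    by_contra hcon
    apply hv
    intro w w' hw hw'
    by_contra hne
    exact hcon ⟨w, w', hw, hw', hne⟩
  obtain ⟨w, w', hw, hw', hne⟩ := hex
  rw [eq_top_iff]
  intro y _
  rw [locNorm, vClosure, Subgroup.mem_iInf]
  intro m
  exact mem_sup_of_split hp hdeg v hw hw' hne y m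

end Fermat.Agent.H7.Cft
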